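import Fermat.Agent.SelbergWeil.Test
import Mathlib.Analysis.SpecialFunctions.SmoothTransition

/-!
# Smooth cut-offs on a logarithmic scale

`band p q δ` is `1` on `[p + δ, q - δ]` and `0` outside `[p, q]`; its transform
`∫ band v exp (s v) dv` is `O (δ⁻² / (1 + |im s|) ^ 2)` in the critical strip.
-/

set_option autoImplicit false

noncomputable section

open Complex MeasureTheory Filter Topology Set
open scoped Real
open FA.WeilExplicit (IsTest testTransform)

namespace FA.SelbergDLVP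

variable {p q δ : ℝ}

/-- The smooth step, as a complex function. -/
def stepC (u : ℝ) : ℂ := (Real.smoothTransition u : ℂ)

/-- A smooth approximation of the indicator of `[p, q]`. -/
def band (p q δ v : ℝ) : ℝ :=
  Real.smoothTransition ((v - p) / δ) - Real.smoothTransition ((v - (q - δ)) / δ)

/-- The same with complex values. -/
def bandC (p q δ v : ℝ) : ℂ := (band p q δ v : ℂ)

theorem contDiff_stepC {n : ℕ∞} : ContDiff ℝ n stepC :=
  Complex.ofRealCLM.contDiff.comp Real.smoothTransition.contDiff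

theorem band_eq_zero (hδ : 0 < δ) (hpq : p + δ ≤ q) {v : ℝ} (hv : v ≤ p ∨ q ≤ v) :
    band p q δ v = 0 := by
  rcases hv with hv | hv
  · rw [band, Real.smoothTransition.zero_of_nonpos (div_nonpos_of_nonpos_of_nonneg (by linarith)
      hδ.le), Real.smoothTransition.zero_of_nonpos (div_nonpos_of_nonpos_of_nonneg (by linarith)
      hδ.le), sub_zero]
  · rw [band, Real.smoothTransition.one_of_one_le ((one_le_div hδ).2 (by linarith)),
      Real.smoothTransition.one_of_one_le ((one_le_div hδ).2 (by linarith)), sub_self]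

theorem band_eq_one (hδ : 0 < δ) {v : ℝ} (h1 : p + δ ≤ v) (h2 : v ≤ q - δ) :
    band p q δ v = 1 := by
  rw [band, Real.smoothTransition.one_of_one_le ((one_le_div hδ).2 (by linarith)),
    Real.smoothTransition.zero_of_nonpos (div_nonpos_of_nonpos_of_nonneg (by linarith) hδ.le),
    sub_zero]

theorem band_nonneg (hδ : 0 < δ) (hpq : p + 2 * δ ≤ q) (v : ℝ) : 0 ≤ band p q δ v := by
  rw [band, sub_nonneg]
  exact Real.smoothTransition.monotone (div_le_div_of_nonneg_right (by linarith) hδ.le)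

theorem band_le_one (v : ℝ) : band p q δ v ≤ 1 := by
  rw [band]
  linarith [Real.smoothTransition.le_one ((v - p) / δ),
    Real.smoothTransition.nonneg ((v - (q - δ)) / δ)]

theorem bandC_eq : bandC p q δ = fun v => stepC ((v - p) / δ) - stepC ((v - (q - δ)) / δ) :=
  funext fun v => by simp [bandC, band, stepC]

theorem contDiff_bandC : ContDiff ℝ 2 (bandC p q δ) := by
  rw [bandC_eq]
  exact (contDiff_stepC.comp ((contDiff_id.sub contDiff_const).div_const _)).sub
    (contDiff_stepC.comp ((contDiff_id.sub contDiff_const).div_const _))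

theorem hasCompactSupport_bandC (hδ : 0 < δ) (hpq : p + δ ≤ q) :
    HasCompactSupport (bandC p q δ) := by
  refine HasCompactSupport.intro (isCompact_Icc (a := p) (b := q)) fun v hv => ?_
  rw [mem_Icc, not_and_or, not_le, not_le] at hv
  rw [bandC, band_eq_zero hδ hpq (hv.imp le_of_lt le_of_lt), ofReal_zero]

theorem isTest_bandC (hδ : 0 < δ) (hpq : p + δ ≤ q) : IsTest (bandC p q δ) :=
  ⟨contDiff_bandC, hasCompactSupport_bandC hδ hpq⟩

/-- `∫ band v exp (s v) dv`. -/
def bandMellin (p q δ : ℝ) (s : ℂ) : ℂ := ∫ v : ℝ, bandC p q δ v * cexp (s * (v : ℂ))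

theorem bandMellin_eq (s : ℂ) :
    bandMellin p q δ s = testTransform (bandC p q δ) (s + 1 / 2) := by
  rw [bandMellin, testTransform, add_sub_cancel_right]

theorem hasDerivAt_scale {f : ℝ → ℂ} (hf : Differentiable ℝ f) (c δ v : ℝ) :
    HasDerivAt (fun u => f ((u - c) / δ)) (deriv f ((v - c) / δ) / (δ : ℂ)) v := by
  refine ((hf _).hasDerivAt.scomp v (((hasDerivAt_id v).sub_const c).div_const δ)).congr_deriv ?_
  simp [Complex.real_smul, div_eq_inv_mul]

theorem deriv2_bandC (v : ℝ) :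
    deriv (deriv (bandC p q δ)) v = (deriv (deriv stepC) ((v - p) / δ) -
      deriv (deriv stepC) ((v - (q - δ)) / δ)) / (δ : ℂ) ^ 2 := by
  have h1 : Differentiable ℝ stepC :=
    (contDiff_stepC (n := 2)).differentiable (by norm_num)
  have hd : ContDiff ℝ 1 (deriv stepC) := (contDiff_succ_iff_deriv.1 (show ContDiff ℝ (1 + 1) stepC
    from by simpa [one_add_one_eq_two] using contDiff_stepC (n := 2))).2.2
  have e : deriv (bandC p q δ) =
      fun v => (deriv stepC ((v - p) / δ) - deriv stepC ((v - (q - δ)) / δ)) / (δ : ℂ) := by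
    rw [bandC_eq]
    funext u
    rw [((hasDerivAt_scale h1 p δ u).fun_sub (hasDerivAt_scale h1 (q - δ) δ u)).deriv]
    exact (sub_div _ _ _).symm
  rw [e, (((hasDerivAt_scale (hd.differentiable one_ne_zero) p δ v).fun_sub
    (hasDerivAt_scale (hd.differentiable one_ne_zero) (q - δ) δ v)).div_const (δ : ℂ)).deriv]
  ring

theorem exists_stepC_bound : ∃ B : ℝ, 0 ≤ B ∧ ∀ u, ‖deriv (deriv stepC) u‖ ≤ B := by
  have hd : ContDiff ℝ 1 (deriv stepC) := (contDiff_succ_iff_deriv.1 (show ContDiff ℝ (1 + 1) stepC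
    from by simpa [one_add_one_eq_two] using contDiff_stepC (n := 2))).2.2
  have hzero : ∀ u, u ∉ Icc (0 : ℝ) 1 → deriv (deriv stepC) u = 0 := fun u hu => by
    rw [mem_Icc, not_and_or, not_le, not_le] at hu
    obtain ⟨k, hk⟩ : ∃ k : ℂ, stepC =ᶠ[𝓝 u] fun _ => k := by
      rcases hu with hu | hu
      · exact ⟨0, mem_of_superset (Iio_mem_nhds hu) fun y hy => by
          show stepC y = 0
          rw [stepC, Real.smoothTransition.zero_of_nonpos (le_of_lt hy), ofReal_zero]⟩
      · exact ⟨1, mem_of_superset (Ioi_mem_nhds hu) fun y hy => by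
          show stepC y = 1
          rw [stepC, Real.smoothTransition.one_of_one_le (le_of_lt hy), ofReal_one]⟩
    rw [hk.deriv.deriv_eq]
    simp
  obtain ⟨B, hB⟩ := (hd.continuous_deriv le_rfl).bounded_above_of_compact_support
    (HasCompactSupport.intro isCompact_Icc hzero)
  exact ⟨B, (norm_nonneg _).trans (hB 0), hB⟩

theorem norm_integral_mul_exp_le {f : ℝ → ℂ} {B : ℝ} (hB : ∀ v, ‖f v‖ ≤ B)
    (hz : ∀ v, v ∉ Icc (-1 : ℝ) 1 → f v = 0) {s : ℂ} (h0 : 0 ≤ s.re) (h1 : s.re ≤ 1) :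
    ‖∫ v : ℝ, f v * cexp (s * (v : ℂ))‖ ≤ 2 * (Real.exp 1 * B) := by
  rw [← setIntegral_eq_integral_of_forall_compl_eq_zero (s := Icc (-1 : ℝ) 1)
    fun v hv => by rw [hz v hv, zero_mul]]
  refine (norm_setIntegral_le_of_norm_le_const measure_Icc_lt_top
    (C := Real.exp 1 * B) fun v hv => ?_).trans (le_of_eq ?_)
  · rw [norm_mul, Complex.norm_exp, mul_comm]
    refine mul_le_mul (Real.exp_le_exp.2 ?_) (hB v) (norm_nonneg _) (Real.exp_pos _).le
    simp only [mul_re, ofReal_re, ofReal_im, mul_zero, sub_zero]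
    nlinarith [mul_le_mul_of_nonneg_left hv.2 h0]
  · rw [Real.volume_real_Icc_of_le (by norm_num)]
    ring

/-- **The decay, uniformly in `δ`.** -/
theorem exists_bandMellin_le : ∃ K : ℝ, 0 ≤ K ∧ ∀ p q δ : ℝ, 0 < δ → δ ≤ 1 → -1 ≤ p →
    p + 2 * δ ≤ q → q ≤ 1 → ∀ s : ℂ, 0 ≤ s.re → s.re ≤ 1 →
      ‖bandMellin p q δ s‖ ≤ K / δ ^ 2 / (1 + |s.im|) ^ 2 := by
  obtain ⟨B, hB0, hB⟩ := exists_stepC_bound
  refine ⟨4 * Real.exp 1 + 8 * (Real.exp 1 * B), by positivity,
    fun p q δ hδ hδ1 hp hpq hq s h0 h1 => ?_⟩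
  have hz : ∀ v, v ∉ Icc (-1 : ℝ) 1 → bandC p q δ v = 0 := fun v hv => by
    rw [mem_Icc, not_and_or, not_le, not_le] at hv
    rw [bandC, band_eq_zero hδ (by linarith)
      (hv.imp (fun h => by linarith) (fun h => by linarith)), ofReal_zero]
  have hT := isTest_bandC (p := p) (q := q) hδ (by linarith)
  have hd : ContDiff ℝ 1 (deriv (bandC p q δ)) := (contDiff_succ_iff_deriv.1
    (show ContDiff ℝ (1 + 1) (bandC p q δ) from by
      simpa [one_add_one_eq_two] using contDiff_bandC)).2.2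
  have hz2 : ∀ v, v ∉ Icc (-1 : ℝ) 1 → deriv (deriv (bandC p q δ)) v = 0 := fun v hv => by
    have e : bandC p q δ =ᶠ[𝓝 v] fun _ => 0 :=
      mem_of_superset (isClosed_Icc.isOpen_compl.mem_nhds hv) fun y hy => hz y hy
    rw [e.deriv.deriv_eq]
    simp
  have b2 : ∀ v, ‖deriv (deriv (bandC p q δ)) v‖ ≤ 2 * B / δ ^ 2 := fun v => by
    rw [deriv2_bandC, norm_div, norm_pow, Complex.norm_real, Real.norm_of_nonneg hδ.le]
    exact div_le_div_of_nonneg_right
      ((norm_sub_le _ _).trans (by linarith [hB ((v - p) / δ), hB ((v - (q - δ)) / δ)]))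
      (by positivity)
  have i0 : ‖bandMellin p q δ s‖ ≤ 2 * (Real.exp 1 * 1) := norm_integral_mul_exp_le
    (fun v => by
      rw [bandC, Complex.norm_real, Real.norm_of_nonneg (band_nonneg hδ hpq v)]
      exact band_le_one v) hz h0 h1
  have e : s * (s * bandMellin p q δ s) =
      ∫ v : ℝ, deriv (deriv (bandC p q δ)) v * cexp (s * (v : ℂ)) := by
    rw [bandMellin, FA.WeilExplicit.mul_integral_exp (hT.1.of_le (by norm_num)) hT.2, mul_neg,
      FA.WeilExplicit.mul_integral_exp hd hT.2.deriv, neg_neg]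
  have i2 := norm_integral_mul_exp_le b2 hz2 h0 h1
  rw [← e, norm_mul, norm_mul] at i2
  have hδ2 : 1 ≤ (δ ^ 2)⁻¹ := (one_le_inv₀ (by positivity)).2 (pow_le_one₀ hδ.le hδ1)
  rw [le_div_iff₀ (by positivity), div_eq_mul_inv]
  have him : |s.im| * |s.im| ≤ ‖s‖ * ‖s‖ :=
    mul_le_mul (abs_im_le_norm s) (abs_im_le_norm s) (abs_nonneg _) (norm_nonneg _)
  have h2 : (1 + |s.im|) ^ 2 ≤ 2 + 2 * (‖s‖ * ‖s‖) := by nlinarith [sq_nonneg (|s.im| - 1)]
  calc ‖bandMellin p q δ s‖ * (1 + |s.im|) ^ 2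
      ≤ ‖bandMellin p q δ s‖ * (2 + 2 * (‖s‖ * ‖s‖)) :=
        mul_le_mul_of_nonneg_left h2 (norm_nonneg _)
    _ = 2 * ‖bandMellin p q δ s‖ + 2 * (‖s‖ * (‖s‖ * ‖bandMellin p q δ s‖)) := by ring
    _ ≤ 4 * Real.exp 1 * (δ ^ 2)⁻¹ + 8 * (Real.exp 1 * B) * (δ ^ 2)⁻¹ := by
        refine add_le_add ?_ ?_
        · nlinarith [Real.exp_pos 1]
        · rw [div_eq_mul_inv] at i2
          linarith
    _ = _ := by ring

/-- **The main term.** -/
theorem bandMellin_one_bounds (hδ : 0 < δ) (hpq : p + 2 * δ ≤ q) :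
    ∃ M : ℝ, bandMellin p q δ 1 = (M : ℂ) ∧
      Real.exp (q - δ) - Real.exp (p + δ) ≤ M ∧ M ≤ Real.exp q - Real.exp p := by
  obtain ⟨F, hF⟩ : ∃ F : ℝ → ℝ, F = fun v => band p q δ v * Real.exp v := ⟨_, rfl⟩
  have hb : Continuous (band p q δ) := by
    unfold band
    fun_prop
  have hFz : ∀ v, v ∉ Icc p q → F v = 0 := fun v hv => by
    rw [mem_Icc, not_and_or, not_le, not_le] at hv
    simp only [hF, band_eq_zero hδ (by linarith : p + δ ≤ q) (hv.imp le_of_lt le_of_lt), zero_mul]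
  have hFi : Integrable F := by
    rw [hF] at hFz ⊢
    exact (hb.mul Real.continuous_exp).integrable_of_hasCompactSupport
      (HasCompactSupport.intro isCompact_Icc hFz)
  have key : ∀ a b : ℝ, a ≤ b →
      ∫ v : ℝ, (Icc a b).indicator Real.exp v = Real.exp b - Real.exp a := fun a b hab => by
    rw [integral_indicator measurableSet_Icc, integral_Icc_eq_integral_Ioc,
      ← intervalIntegral.integral_of_le hab, integral_exp]
  have hi : ∀ a b : ℝ, Integrable ((Icc a b).indicator Real.exp) := fun a b =>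
    Real.continuous_exp.integrableOn_Icc.integrable_indicator measurableSet_Icc
  refine ⟨∫ v, F v, ?_, ?_, ?_⟩
  · rw [bandMellin, ← integral_complex_ofReal]
    refine integral_congr_ae (Eventually.of_forall fun v => ?_)
    simp [hF, bandC]
  · rw [← key (p + δ) (q - δ) (by linarith)]
    refine integral_mono (hi _ _) hFi fun v => ?_
    by_cases hv : v ∈ Icc (p + δ) (q - δ)
    · simp only [indicator_of_mem hv, hF, band_eq_one hδ hv.1 hv.2, one_mul, le_refl]
    · rw [indicator_of_notMem hv, hF]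
      exact mul_nonneg (band_nonneg hδ hpq v) (Real.exp_pos v).le
  · rw [← key p q (by linarith)]
    refine integral_mono hFi (hi _ _) fun v => ?_
    by_cases hv : v ∈ Icc p q
    · rw [indicator_of_mem hv, hF]
      exact mul_le_of_le_one_left (Real.exp_pos v).le (band_le_one v)
    · rw [indicator_of_notMem hv, hFz v hv]

end FA.SelbergDLVP

end
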