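import Fermat.Agent.SelbergDLVP.Sum

/-!
# The error term of de la Vallée Poussin

Majorant and minorant cut-offs of `(x/2, x]` of width `δ = exp (-c √(log x))` give
`ψ x - ψ (x / 2)`, and halving sums the pieces.
-/

set_option autoImplicit false

noncomputable section

open Complex MeasureTheory Filter Topology Set
open FA.DegreeGap (HasFunctionalEquation)
open FA.SelbergClass (HasEulerProduct)
open FA.SelbergLandau (lamF)

namespace FA.SelbergDLVP

variable {a : ℕ → ℂ} {m : ℕ} {E : ℂ → ℂ} {r : ℕ} {lam : Fin r → ℝ} {mu : Fin r → ℂ} {Q : ℝ}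
  {omega : ℂ} {δ L : ℝ}

/-- `∑_{n ≤ x} re Λ_F n - m x`. -/
def devRe (a : ℕ → ℂ) (m : ℕ) (x : ℝ) : ℝ :=
  (∑ n ∈ Finset.Ioc 0 ⌊x⌋₊, lamRe a n) - m * x

/-- `∑_{x/2 < n ≤ x} re Λ_F n`, at `x = exp L`. -/
def dyadSum (a : ℕ → ℂ) (L : ℝ) : ℝ :=
  ∑ n ∈ Finset.Ioc ⌊Real.exp L / 2⌋₊ ⌊Real.exp L⌋₊, lamRe a n

theorem devRe_sub_half (a : ℕ → ℂ) (m : ℕ) (L : ℝ) :
    devRe a m (Real.exp L) - devRe a m (Real.exp L / 2) =
      dyadSum a L - m * (Real.exp L / 2) := by
  rw [devRe, devRe, dyadSum, ← Finset.sum_Ioc_consecutive (fun n => lamRe a n)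
    (Nat.zero_le ⌊Real.exp L / 2⌋₊) (Nat.floor_mono (by linarith [Real.exp_pos L]))]
  ring

theorem log_mem_of_mem {n : ℕ} (hn : n ∈ Finset.Ioc ⌊Real.exp L / 2⌋₊ ⌊Real.exp L⌋₊) :
    -Real.log 2 < Real.log n - L ∧ Real.log n - L ≤ 0 := by
  obtain ⟨h1, h2⟩ := Finset.mem_Ioc.1 hn
  have h1' : Real.exp L / 2 < n := Nat.lt_of_floor_lt h1
  have hn0 : (0 : ℝ) < n := lt_trans (by positivity) h1'
  have h2' : (n : ℝ) ≤ Real.exp L := (Nat.le_floor_iff (Real.exp_pos L).le).1 h2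
  have e1 := Real.log_lt_log (by positivity) h1'
  rw [Real.log_div (Real.exp_pos L).ne' two_ne_zero, Real.log_exp] at e1
  have e2 := Real.log_le_log hn0 h2'
  rw [Real.log_exp] at e2
  constructor <;> linarith

theorem dyadSum_le (hp : NonnegLam a) (hδ : 0 < δ) (hδ1 : δ ≤ 1 / 8) (L : ℝ) :
    dyadSum a L ≤ bandSum a (-Real.log 2 - δ) δ δ L := by
  have hl := Real.log_two_gt_d9
  refine (Finset.sum_le_sum fun n hn => ?_).trans
    ((summable_bandSum hδ (by linarith) (by linarith) L).sum_le_tsum _ fun n _ =>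
      mul_nonneg (hp.nonneg n) (band_nonneg hδ (by linarith) _))
  obtain ⟨h1, h2⟩ := log_mem_of_mem hn
  rw [band_eq_one hδ (by linarith) (by linarith), mul_one]

theorem le_dyadSum (hp : NonnegLam a) (hδ : 0 < δ) (hδ1 : δ ≤ 1 / 8) (L : ℝ) :
    bandSum a (-Real.log 2) 0 δ L ≤ dyadSum a L := by
  have hl := Real.log_two_gt_d9
  rw [bandSum, tsum_eq_sum (s := Finset.Ioc ⌊Real.exp L / 2⌋₊ ⌊Real.exp L⌋₊) fun n hn => ?_]
  · exact Finset.sum_le_sum fun n _ => mul_le_of_le_one_right (hp.nonneg n) (band_le_one _)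
  rcases eq_or_ne n 0 with rfl | hn0
  · simp [lamRe_zero]
  have hn0' : (0 : ℝ) < n := by exact_mod_cast Nat.pos_of_ne_zero hn0
  rw [band_eq_zero hδ (by linarith) ?_, mul_zero]
  rw [Finset.mem_Ioc, not_and_or, not_lt, not_le] at hn
  rcases hn with hn | hn
  · left
    have := Real.log_le_log hn0' ((Nat.le_floor_iff (by positivity)).1 hn)
    rw [Real.log_div (Real.exp_pos L).ne' two_ne_zero, Real.log_exp] at this
    linarith
  · right
    have := Real.log_lt_log (Real.exp_pos L) (Nat.lt_of_floor_lt hn)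
    rw [Real.log_exp] at this
    linarith

theorem exp_small (hδ : 0 ≤ δ) (hδ1 : δ ≤ 1 / 8) :
    Real.exp δ ≤ 1 + 2 * δ ∧ 1 - δ ≤ Real.exp (-δ) := by
  refine ⟨(Real.exp_bound_div_one_sub_of_interval hδ (by linarith)).trans ?_, ?_⟩
  · rw [div_le_iff₀ (by linarith)]
    nlinarith
  · linarith [Real.add_one_le_exp (-δ)]

/-- **One dyadic piece.** -/
theorem exists_dyad_le (h : HasFunctionalEquation a m E lam mu Q omega)
    (he : HasEulerProduct a) (hp : NonnegLam a) {c : ℝ} (hc : 0 < c) (hc1 : c ≤ 1)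
    (hz : ∀ ρ, FA.SelbergHadamard.xiF m E lam mu Q omega ρ = 0 →
      ρ.re ≤ 1 - c / Real.log (|ρ.im| + 3)) :
    ∃ C : ℝ, 0 ≤ C ∧ ∀ L : ℝ, 1 ≤ L →
      |devRe a m (Real.exp L) - devRe a m (Real.exp L / 2)| ≤
        C * (Real.exp L * Real.exp (-(√(2 * c) / 3) * √L)) := by
  obtain ⟨C, hC, hclose⟩ := exists_bandSum_close h he hp hc hc1 hz
  refine ⟨64 * C + m, by positivity, fun L hL => ?_⟩
  obtain ⟨η, hη⟩ : ∃ η, η = Real.exp (-(√(2 * c) / 3) * √L) := ⟨_, rfl⟩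
  have hη0 : 0 < η := hη ▸ Real.exp_pos _
  have hη1 : η ≤ 1 := hη ▸ Real.exp_le_one_iff.2 (mul_nonpos_of_nonpos_of_nonneg
    (neg_nonpos.2 (by positivity)) (Real.sqrt_nonneg L))
  have h3 : Real.exp (-√(2 * c * L)) = η ^ 3 := by
    rw [hη, ← Real.exp_nat_mul, Real.sqrt_mul (by positivity)]
    push_cast
    ring_nf
  obtain ⟨δ, hδ⟩ : ∃ δ, δ = η / 8 := ⟨_, rfl⟩
  have hδ0 : 0 < δ := hδ ▸ by positivity
  have hδ1 : δ ≤ 1 / 8 := by linarith
  have hX := Real.exp_pos L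
  have hl := Real.log_two_gt_d9
  have hl' := Real.log_two_lt_d9
  have herr : C / δ ^ 2 * (Real.exp L * Real.exp (-√(2 * c * L))) =
      64 * C * (Real.exp L * η) := by
    rw [h3, hδ]
    field_simp
    ring
  obtain ⟨hup, hlo⟩ := exp_small hδ0.le hδ1
  rw [← hη, devRe_sub_half, abs_le]
  have he2 : Real.exp (-Real.log 2) = 1 / 2 := by
    rw [Real.exp_neg, Real.exp_log two_pos, one_div]
  constructor
  · obtain ⟨M, hM, hM1, -⟩ := bandMellin_one_bounds (p := -Real.log 2) (q := 0) hδ0 (by linarith)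
    have hb := hclose (-Real.log 2) 0 δ hδ0 (by linarith) (by linarith) (by linarith)
      zero_le_one L hL
    rw [hM, ← ofReal_natCast, ← ofReal_mul, ← ofReal_mul, ← ofReal_sub, Complex.norm_real,
      Real.norm_eq_abs, herr] at hb
    rw [zero_sub, Real.exp_add, he2] at hM1
    have hM2 : 1 / 2 - 2 * δ ≤ M := by linarith
    have := mul_le_mul_of_nonneg_left hM2 (show 0 ≤ (m : ℝ) * Real.exp L by positivity)
    have h4 : (m : ℝ) * Real.exp L * (2 * δ) ≤ m * (Real.exp L * η) := by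
      rw [hδ]
      nlinarith [mul_nonneg (mul_nonneg (Nat.cast_nonneg (α := ℝ) m) hX.le) hη0.le]
    linarith [(abs_le.1 hb).1, le_dyadSum hp hδ0 hδ1 L]
  · obtain ⟨M, hM, -, hM1⟩ := bandMellin_one_bounds (p := -Real.log 2 - δ) (q := δ) hδ0
      (by linarith)
    have hb := hclose (-Real.log 2 - δ) δ δ hδ0 (by linarith) (by linarith) (by linarith)
      (by linarith) L hL
    rw [hM, ← ofReal_natCast, ← ofReal_mul, ← ofReal_mul, ← ofReal_sub, Complex.norm_real,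
      Real.norm_eq_abs, herr] at hb
    rw [sub_eq_add_neg (-Real.log 2) δ, Real.exp_add, he2] at hM1
    have hM2 : M ≤ 1 / 2 + 3 * δ := by linarith
    have := mul_le_mul_of_nonneg_left hM2 (show 0 ≤ (m : ℝ) * Real.exp L by positivity)
    have h4 : (m : ℝ) * Real.exp L * (3 * δ) ≤ m * (Real.exp L * η) := by
      rw [hδ]
      nlinarith [mul_nonneg (mul_nonneg (Nat.cast_nonneg (α := ℝ) m) hX.le) hη0.le]
    linarith [(abs_le.1 hb).2, dyadSum_le hp hδ0 hδ1 L]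

/-- Halving sums the pieces. -/
theorem exists_le_of_dyad {D : ℝ → ℝ} {k C : ℝ} (hk : 0 ≤ k) (hC : 0 ≤ C)
    (hbd : ∀ Y : ℝ, ∃ B : ℝ, ∀ x : ℝ, 1 ≤ x → x ≤ Y → |D x| ≤ B)
    (hstep : ∀ L : ℝ, 1 ≤ L → |D (Real.exp L) - D (Real.exp L / 2)| ≤
      C * (Real.exp L * Real.exp (-k * √L))) :
    ∃ C' : ℝ, ∀ x : ℝ, 1 ≤ x → |D x| ≤ C' * x * Real.exp (-k * √(Real.log x)) := by
  obtain ⟨L₀, hL₀⟩ : ∃ L₀, L₀ = 16 * k ^ 2 + 2 := ⟨_, rfl⟩
  have hL02 : 2 ≤ L₀ := by linarith [sq_nonneg k]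
  obtain ⟨B, hB⟩ := hbd (Real.exp L₀)
  obtain ⟨C', hC'⟩ : ∃ C', C' = max (4 * C) (B * Real.exp (k * √L₀)) := ⟨_, rfl⟩
  have hC'0 : 0 ≤ C' := hC' ▸ le_trans (by positivity) (le_max_left _ _)
  have key : ∀ n : ℕ, ∀ x : ℝ, 1 ≤ x → x ≤ Real.exp L₀ * 2 ^ n →
      |D x| ≤ C' * x * Real.exp (-k * √(Real.log x)) := by
    intro n
    induction n with
    | zero =>
      intro x hx hxle
      rw [pow_zero, mul_one] at hxle
      have hB0 : 0 ≤ B := (abs_nonneg _).trans (hB x hx hxle)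
      have hlog : Real.log x ≤ L₀ :=
        (Real.log_le_log (by linarith) hxle).trans_eq (Real.log_exp _)
      refine (hB x hx hxle).trans ?_
      calc B = B * Real.exp (k * √L₀) * (1 * Real.exp (-k * √L₀)) := by
            rw [one_mul, mul_assoc, ← Real.exp_add]
            simp
        _ ≤ C' * (x * Real.exp (-k * √(Real.log x))) := by
            refine mul_le_mul (hC' ▸ le_max_right _ _) (mul_le_mul hx (Real.exp_le_exp.2 ?_)
              (Real.exp_pos _).le (by linarith)) (by positivity) hC'0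
            rw [neg_mul, neg_mul, neg_le_neg_iff]
            exact mul_le_mul_of_nonneg_left (Real.sqrt_le_sqrt hlog) hk
        _ = _ := (mul_assoc _ _ _).symm
    | succ n ih =>
      intro x hx hxle
      rcases le_or_gt x (Real.exp L₀ * 2 ^ n) with hsmall | hbig
      · exact ih x hx hsmall
      have hx0 : 0 < x := by linarith
      have hL₀x : L₀ < Real.log x := by
        rw [Real.lt_log_iff_exp_lt hx0]
        exact (le_mul_of_one_le_right (Real.exp_pos _).le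
          (one_le_pow₀ one_le_two)).trans_lt hbig
      have hx2 : 2 ≤ x := by
        rw [← Real.exp_log hx0]
        linarith [Real.add_one_le_exp (Real.log x)]
      have hhalf := ih (x / 2) (by linarith) (by rw [pow_succ] at hxle; linarith)
      rw [Real.log_div hx0.ne' two_ne_zero] at hhalf
      have hs := hstep (Real.log x) (by linarith)
      rw [Real.exp_log hx0] at hs
      obtain ⟨η, hη⟩ : ∃ η, η = Real.exp (-k * √(Real.log x)) := ⟨_, rfl⟩
      obtain ⟨u, hu⟩ : ∃ u, u = √(Real.log x) := ⟨_, rfl⟩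
      obtain ⟨v, hv⟩ : ∃ v, v = √(Real.log x - Real.log 2) := ⟨_, rfl⟩
      have hl' := Real.log_two_lt_d9
      have hu2 : u ^ 2 = Real.log x := hu ▸ Real.sq_sqrt (by linarith)
      have hv2 : v ^ 2 = Real.log x - Real.log 2 := hv ▸ Real.sq_sqrt (by linarith)
      have hv0 : 0 ≤ v := hv ▸ Real.sqrt_nonneg _
      have hu0 : 0 ≤ u := hu ▸ Real.sqrt_nonneg _
      have hku : 4 * k ≤ u := by nlinarith
      have hvu : k * (u - v) ≤ 1 / 4 := by
        rcases eq_or_lt_of_le hk with rfl | hk'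
        · linarith
        have hd : (u - v) * (u + v) = Real.log 2 := by linear_combination hu2 - hv2
        have h0 : 0 < Real.log 2 := Real.log_pos one_lt_two
        have huv : 0 ≤ u - v := by nlinarith
        nlinarith [mul_le_mul_of_nonneg_right hku huv, mul_nonneg hv0 huv]
      have hη2 : Real.exp (-k * √(Real.log x - Real.log 2)) ≤ 3 / 2 * η := by
        rw [hη, ← hv, ← hu, show -k * v = -k * u + k * (u - v) by ring, Real.exp_add,
          mul_comm (3 / 2 : ℝ)]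
        refine mul_le_mul_of_nonneg_left ((Real.exp_le_exp.2 hvu).trans ?_) (Real.exp_pos _).le
        exact (Real.exp_bound_div_one_sub_of_interval (by norm_num) (by norm_num)).trans
          (by norm_num)
      have h1 := mul_le_mul_of_nonneg_left hη2 (show 0 ≤ C' * (x / 2) by positivity)
      have h2 : 4 * C ≤ C' := hC' ▸ le_max_left _ _
      have h3 := mul_le_mul_of_nonneg_right h2 (show 0 ≤ x * η by rw [hη]; positivity)
      rw [← hη] at hs ⊢
      have := abs_sub_abs_le_abs_sub (D x) (D (x / 2))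
      linarith
  refine ⟨C', fun x hx => ?_⟩
  obtain ⟨n, hn⟩ := pow_unbounded_of_one_lt (x / Real.exp L₀) one_lt_two
  refine key n x hx ?_
  rw [div_lt_iff₀ (Real.exp_pos _)] at hn
  linarith

theorem exists_devRe_bound (hp : NonnegLam a) (m : ℕ) (Y : ℝ) :
    ∃ B : ℝ, ∀ x : ℝ, 1 ≤ x → x ≤ Y → |devRe a m x| ≤ B := by
  refine ⟨(∑ n ∈ Finset.Ioc 0 ⌊Y⌋₊, lamRe a n) + m * Y, fun x hx hxY => ?_⟩
  have h1 : ∑ n ∈ Finset.Ioc 0 ⌊x⌋₊, lamRe a n ≤ ∑ n ∈ Finset.Ioc 0 ⌊Y⌋₊, lamRe a n :=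
    Finset.sum_le_sum_of_subset_of_nonneg
      (Finset.Ioc_subset_Ioc_right (Nat.floor_mono hxY)) fun n _ _ => hp.nonneg n
  have h2 : (m : ℝ) * x ≤ m * Y := mul_le_mul_of_nonneg_left hxY (Nat.cast_nonneg m)
  have h3 : 0 ≤ ∑ n ∈ Finset.Ioc 0 ⌊x⌋₊, lamRe a n := Finset.sum_nonneg fun n _ => hp.nonneg n
  have h4 : 0 ≤ (m : ℝ) * x := by positivity
  rw [devRe, abs_le]
  constructor <;> linarith

/-- **`ψ_F x = m x + O (x exp (-c √(log x)))`.** -/
theorem exists_psi_error (h : HasFunctionalEquation a m E lam mu Q omega)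
    (he : HasEulerProduct a) (hp : NonnegLam a) (hm : m ≤ 1) (h1 : E 1 ≠ 0) :
    ∃ c C : ℝ, 0 < c ∧ ∀ x : ℝ, 1 ≤ x →
      ‖(∑ n ∈ Finset.Ioc 0 ⌊x⌋₊, lamF a n) - (m : ℂ) * x‖ ≤
        C * x * Real.exp (-c * √(Real.log x)) := by
  obtain ⟨c, hc, hc1, hz⟩ := exists_xiF_zeroFree h he hp hm h1
  obtain ⟨C, hC, hs⟩ := exists_dyad_le h he hp hc hc1 hz
  obtain ⟨C', hC'⟩ := exists_le_of_dyad (by positivity) hC (exists_devRe_bound hp m) hs
  refine ⟨√(2 * c) / 3, C', by positivity, fun x hx => ?_⟩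
  rw [Finset.sum_congr rfl fun n _ => hp.eq_ofReal n, ← Complex.ofReal_sum, ← ofReal_natCast,
    ← ofReal_mul, ← ofReal_sub, Complex.norm_real, Real.norm_eq_abs]
  exact hC' x hx

end FA.SelbergDLVP

end
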