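import Fermat.Agent.SelbergDLVP.Main
import Fermat.Agent.Root.SummarySelbergLandau
import Fermat.Agent.SelbergStructure.Converse

/-!
# `ζ L (χ)` for a quadratic character

`Λ n (1 + χ n) ≥ 0`.
-/

set_option autoImplicit false

noncomputable section

open Complex Filter Topology
open scoped LSeries.notation ArithmeticFunction.vonMangoldt
open FA.DegreeGap (HasFunctionalEquation)
open FA.SelbergClass (HasEulerProduct)
open FA.SelbergLandau (lamF lamF_mul lamF_eq)
open FA.SelbergStructure (shiftChar)

namespace FA.SelbergDLVP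

theorem apply_convolution (a b : ℕ → ℂ) (n : ℕ) :
    toArithmeticFunction (a ⍟ b) n = (toArithmeticFunction a * toArithmeticFunction b) n := by
  rcases eq_or_ne n 0 with rfl | hn
  · simp
  rw [FA.SelbergClass.coe_toArithmeticFunction hn]
  rfl

theorem logMul_convolution (a b : ℕ → ℂ) :
    toArithmeticFunction (LSeries.logMul (a ⍟ b)) =
      toArithmeticFunction (LSeries.logMul a) * toArithmeticFunction b +
        toArithmeticFunction a * toArithmeticFunction (LSeries.logMul b) := by
  ext n
  rcases eq_or_ne n 0 with rfl | hn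
  · simp
  rw [FA.SelbergClass.coe_toArithmeticFunction hn, LSeries.logMul, LSeries.convolution_def,
    ArithmeticFunction.add_apply, ArithmeticFunction.mul_apply, ArithmeticFunction.mul_apply,
    Finset.mul_sum, ← Finset.sum_add_distrib]
  refine Finset.sum_congr rfl fun z hz => ?_
  obtain ⟨hmul, -⟩ := Nat.mem_divisorsAntidiagonal.1 hz
  have h1 : z.1 ≠ 0 := fun e => hn (by rw [← hmul, e, zero_mul])
  have h2 : z.2 ≠ 0 := fun e => hn (by rw [← hmul, e, mul_zero])
  simp only [FA.SelbergClass.coe_toArithmeticFunction h1,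
    FA.SelbergClass.coe_toArithmeticFunction h2, LSeries.logMul]
  rw [← hmul, ← natCast_log, ← natCast_log, ← natCast_log, Nat.cast_mul,
    Real.log_mul (Nat.cast_ne_zero.2 h1) (Nat.cast_ne_zero.2 h2)]
  push_cast
  ring

/-- **`Λ` of a product is the sum.** -/
theorem lamF_convolution {a b : ℕ → ℂ} (ha : a 1 = 1) (hb : b 1 = 1) :
    lamF (a ⍟ b) = lamF a + lamF b := by
  have e : toArithmeticFunction (a ⍟ b) = toArithmeticFunction a * toArithmeticFunction b :=
    ArithmeticFunction.ext (apply_convolution a b)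
  have h1 : (a ⍟ b) 1 = 1 := by simp [LSeries.convolution_def, ha, hb]
  refine lamF_eq h1 ?_
  rw [e, logMul_convolution, ← lamF_mul ha, ← lamF_mul hb]
  ring

theorem nonnegLam_zeta_mul {q : ℕ} [NeZero q] {χ : DirichletCharacter ℂ q} (hχ : χ.IsQuadratic) :
    NonnegLam ((1 : ℕ → ℂ) ⍟ shiftChar χ 0) := fun n => by
  rw [lamF_convolution rfl (FA.SelbergStructure.euler_shiftChar χ 0).map_one,
    ArithmeticFunction.add_apply]
  rcases eq_or_ne n 0 with rfl | hn
  · simp
  rw [FA.SelbergLandauSummary.lamF_zeta hn, FA.SelbergLandauSummary.lamF_character χ hn]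
  rcases hχ (n : ZMod q) with e | e | e <;> rw [e] <;>
    simp [ArithmeticFunction.vonMangoldt_nonneg]

theorem zeta_mul_apply_one {q : ℕ} [NeZero q] {χ : DirichletCharacter ℂ q} (h1 : χ ≠ 1) :
    FA.DegreeOne.zetaEntire 1 * χ.LFunction (1 + ((0 : ℝ) : ℂ) * I) ≠ 0 :=
  mul_ne_zero (FA.SelbergHadamard.zetaEntire_line_ne one_re) (by
    simpa using DirichletCharacter.LFunction_apply_one_ne_zero h1)

end FA.SelbergDLVP

end
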