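import Fermat.Agent.SelbergDLVP.Series
import Fermat.Agent.SelbergWeil.Main
import Fermat.Agent.SelbergWeil.Positivity
import Fermat.Agent.SelbergOmega.Main

/-!
# The zero-free region of de la Vallée Poussin

`re ξ'/ξ = ∑ m re 1 / (s - ρ)` has nonnegative terms for `re s > 1`, and
`ξ'/ξ = m / (s - 1) + O (log (|t| + 3)) - ∑ Λ_F n n ^ (-s)`.
-/

set_option autoImplicit false

noncomputable section

open Complex Filter Topology Set
open FA.DedekindHadamard (fMult)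
open FA.DegreeGap (HasFunctionalEquation pt pt_re)
open FA.SelbergClass (HasEulerProduct)
open FA.SelbergHadamard (xiF isSelfDual_xiF IsSelfDual reTerm one_le_log_add)
open FA.SelbergLandau (lamF)
open FA.SelbergWeil (restKernel)

namespace FA.SelbergDLVP

variable {a : ℕ → ℂ} {m : ℕ} {E : ℂ → ℂ} {r : ℕ} {lam : Fin r → ℝ} {mu : Fin r → ℂ} {Q : ℝ}
  {omega : ℂ} {X : ℂ → ℂ} {ρ : ℂ}

theorem reTerm_nonneg (hX : IsSelfDual X) {s : ℂ} (hs : 1 < s.re) (ρ : ℂ) :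
    0 ≤ reTerm X s ρ := by
  rw [reTerm]
  by_cases hm : fMult X ρ = 0
  · simp [hm]
  refine mul_nonneg (Nat.cast_nonneg _) ?_
  rw [inv_re, sub_re]
  exact div_nonneg (by linarith [(hX.zero_strip (hX.mult_ne_zero_iff.1 hm)).2]) (normSq_nonneg _)

/-- The Gamma factor grows like a logarithm. -/
theorem exists_restKernel_log (hlam : ∀ j, 0 < lam j) (hmu : ∀ j, 0 ≤ (mu j).re) (Q : ℝ) (m : ℕ) :
    ∃ A : ℝ, 0 ≤ A ∧ ∀ s : ℂ, 1 ≤ s.re → s.re ≤ 2 →
      ‖restKernel m lam mu Q s‖ ≤ A * Real.log (|s.im| + 3) := by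
  refine ⟨m + ‖Complex.log (Q : ℂ)‖ + ∑ j, lam j * ((lam j)⁻¹ + 9 +
      3 * (Real.log (lam j * 3 + ‖mu j‖ + 1) + 1)), ?_, fun s h1 h2 => ?_⟩
  · refine add_nonneg (by positivity) (Finset.sum_nonneg fun j _ => mul_nonneg (hlam j).le ?_)
    have hl := hlam j
    have := Real.log_nonneg (show 1 ≤ lam j * 3 + ‖mu j‖ + 1 by
      linarith [norm_nonneg (mu j), mul_pos hl (show (0 : ℝ) < 3 by norm_num)])
    positivity
  obtain ⟨w, hw⟩ : ∃ w, w = Real.log (|s.im| + 3) := ⟨_, rfl⟩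
  have hw1 : 1 ≤ w := hw ▸ one_le_log_add (abs_nonneg _)
  rw [← hw, restKernel, FA.SelbergWeil.archF, add_mul, add_mul, ← add_assoc, Finset.sum_mul]
  refine (norm_add₃_le).trans (add_le_add (add_le_add ?_ (le_mul_of_one_le_right (norm_nonneg _)
    hw1)) (norm_sum_le_of_le _ fun j _ => ?_))
  · rw [norm_mul, norm_inv, Complex.norm_natCast]
    exact mul_le_mul_of_nonneg_left ((inv_le_one_of_one_le₀ (h1.trans (re_le_norm s))).trans hw1)
      (Nat.cast_nonneg m)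
  have hl := hlam j
  obtain ⟨z, hz⟩ : ∃ z, z = (lam j : ℂ) * s + mu j := ⟨_, rfl⟩
  have hre : lam j ≤ z.re := by
    rw [hz, add_re, re_ofReal_mul]
    nlinarith [hmu j]
  obtain ⟨K, hK⟩ : ∃ K, K = lam j * 3 + ‖mu j‖ + 1 := ⟨_, rfl⟩
  have hK1 : 1 ≤ K := by
    rw [hK]
    linarith [norm_nonneg (mu j), mul_pos hl (show (0 : ℝ) < 3 by norm_num)]
  have hn : ‖z‖ + 3 ≤ K * (|s.im| + 3) := by
    have e1 : ‖z‖ ≤ lam j * (2 + |s.im|) + ‖mu j‖ := by
      rw [hz]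
      refine (norm_add_le _ _).trans (add_le_add ?_ le_rfl)
      rw [norm_mul, Complex.norm_real, Real.norm_of_nonneg hl.le]
      refine mul_le_mul_of_nonneg_left ((norm_le_abs_re_add_abs_im s).trans
        (add_le_add ?_ le_rfl)) hl.le
      rw [abs_of_pos (by linarith)]
      exact h2
    rw [hK]
    nlinarith [mul_nonneg hl.le (abs_nonneg s.im), abs_nonneg s.im,
      mul_nonneg (norm_nonneg (mu j)) (abs_nonneg s.im), norm_nonneg (mu j)]
  have hlog : Real.log (‖z‖ + 3) ≤ (Real.log K + 1) * w := by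
    refine (Real.log_le_log (by positivity) hn).trans ?_
    rw [Real.log_mul (by linarith) (by positivity), ← hw, add_mul, one_mul]
    linarith [le_mul_of_one_le_right (Real.log_nonneg hK1) hw1]
  rw [← hK, ← hz, norm_mul, Complex.norm_real, Real.norm_of_nonneg hl.le, mul_assoc]
  refine mul_le_mul_of_nonneg_left ((FA.SelbergWeil.norm_digamma_le_log hl hre).trans ?_) hl.le
  have h5 : (lam j)⁻¹ + 9 ≤ ((lam j)⁻¹ + 9) * w := le_mul_of_one_le_right (by positivity) hw1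
  linarith

/-- **`re ∑ Λ_F n n ^ (-s)` is at most the pole, a logarithm, and minus any one zero.** -/
theorem exists_re_series_le (h : HasFunctionalEquation a m E lam mu Q omega)
    (he : HasEulerProduct a) (hp : NonnegLam a) :
    ∃ A : ℝ, 0 ≤ A ∧ ∀ σ : ℝ, 1 < σ → σ ≤ 2 → ∀ (t : ℝ) (ρ : ℂ),
      (LSeries (lamF a) (pt σ t)).re ≤ m * ((pt σ t - 1)⁻¹).re + A * Real.log (|t| + 3) -
        reTerm (xiF m E lam mu Q omega) (pt σ t) ρ := by
  obtain ⟨A, hA0, hA⟩ := exists_restKernel_log h.lam_pos h.mu_re Q m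
  refine ⟨A, hA0, fun σ h1 h2 t ρ => ?_⟩
  have hd := isSelfDual_xiF h he
  have hs : 1 < (pt σ t).re := by rwa [pt_re]
  have hle := le_hasSum (hd.hasSum_reTerm (hd.ne_zero _ hs)) ρ fun z _ => reTerm_nonneg hd hs z
  rw [FA.SelbergWeil.logDeriv_xiF h (goodRight h he hp h1), sub_re, add_re, ← ofReal_natCast,
    re_ofReal_mul] at hle
  have hk := (re_le_norm _).trans (hA (pt σ t) (by rw [pt_re]; linarith) (by rwa [pt_re]))
  rw [show (pt σ t).im = t by simp [pt]] at hk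
  linarith

theorem re_pole_zero (σ : ℝ) : ((pt σ 0 - 1)⁻¹).re = (σ - 1)⁻¹ := by
  rw [show pt σ 0 - 1 = ((σ - 1 : ℝ) : ℂ) by simp [pt], ← ofReal_inv, ofReal_re]

theorem re_pole_le (σ : ℝ) {t : ℝ} (ht : t ≠ 0) : ((pt σ t - 1)⁻¹).re ≤ |t|⁻¹ := by
  refine (re_le_norm _).trans ?_
  rw [norm_inv]
  exact inv_anti₀ (abs_pos.2 ht) (le_trans (by simp [pt]) (abs_im_le_norm (pt σ t - 1)))

theorem reTerm_at (σ : ℝ) (ρ : ℂ) :
    reTerm X (pt σ ρ.im) ρ = (fMult X ρ : ℝ) / (σ - ρ.re) := by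
  rw [reTerm, show pt σ ρ.im - ρ = ((σ - ρ.re : ℝ) : ℂ) by
    apply Complex.ext <;> simp [pt], ← ofReal_inv, ofReal_re, div_eq_mul_inv]

/-- **`3-4-1` against one zero.** -/
theorem exists_main_le (h : HasFunctionalEquation a m E lam mu Q omega)
    (he : HasEulerProduct a) (hp : NonnegLam a) :
    ∃ A : ℝ, 0 ≤ A ∧ ∀ σ : ℝ, 1 < σ → σ ≤ 2 → ∀ ρ : ℂ, ρ.im ≠ 0 →
      4 * ((fMult (xiF m E lam mu Q omega) ρ : ℝ) / (σ - ρ.re)) ≤
        3 * m * (σ - 1)⁻¹ + 5 * m * |ρ.im|⁻¹ + A * Real.log (|ρ.im| + 3) := by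
  obtain ⟨A, hA0, hA⟩ := exists_re_series_le h he hp
  refine ⟨9 * A, by positivity, fun σ h1 h2 ρ hρ => ?_⟩
  have hd := isSelfDual_xiF h he
  have hs : ∀ t : ℝ, 1 < (pt σ t).re := fun t => by rwa [pt_re]
  have e0 := hA σ h1 h2 0 ρ
  have e1 := hA σ h1 h2 ρ.im ρ
  have e2 := hA σ h1 h2 (2 * ρ.im) ρ
  have n0 := reTerm_nonneg hd (hs 0) ρ
  have n2 := reTerm_nonneg hd (hs (2 * ρ.im)) ρ
  rw [re_pole_zero, abs_zero, zero_add] at e0
  rw [reTerm_at] at e1
  have p1 := mul_le_mul_of_nonneg_left (re_pole_le σ hρ) (Nat.cast_nonneg m)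
  have p2 := mul_le_mul_of_nonneg_left
    ((re_pole_le σ (mul_ne_zero two_ne_zero hρ)).trans
      (inv_anti₀ (abs_pos.2 hρ) (by rw [abs_mul, abs_two]; linarith [abs_nonneg ρ.im])))
    (Nat.cast_nonneg m)
  have l3 : Real.log 3 ≤ Real.log (|ρ.im| + 3) :=
    Real.log_le_log (by norm_num) (le_add_of_nonneg_left (abs_nonneg _))
  have l2 : Real.log (|2 * ρ.im| + 3) ≤ 2 * Real.log (|ρ.im| + 3) := by
    rw [show (2 : ℝ) * Real.log (|ρ.im| + 3) = Real.log ((|ρ.im| + 3) ^ 2) by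
      rw [Real.log_pow]; norm_num]
    refine Real.log_le_log (by positivity) ?_
    rw [abs_mul, abs_two]
    nlinarith [abs_nonneg ρ.im]
  have l3' := mul_le_mul_of_nonneg_left l3 hA0
  have l2' := mul_le_mul_of_nonneg_left l2 hA0
  linarith [three_four_one h he hp h1 ρ.im]

theorem four_fMult_le (h : HasFunctionalEquation a m E lam mu Q omega)
    (he : HasEulerProduct a) (hp : NonnegLam a) (hre : ρ.re = 1) (him : ρ.im ≠ 0) :
    4 * fMult (xiF m E lam mu Q omega) ρ ≤ 3 * m := by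
  obtain ⟨A, hA0, hA⟩ := exists_main_le h he hp
  obtain ⟨k, hk⟩ : ∃ k, k = fMult (xiF m E lam mu Q omega) ρ := ⟨_, rfl⟩
  obtain ⟨M, hM⟩ : ∃ M, M = 5 * m * |ρ.im|⁻¹ + A * Real.log (|ρ.im| + 3) := ⟨_, rfl⟩
  have hM0 : 0 ≤ M := by
    have := one_le_log_add (abs_nonneg ρ.im)
    rw [hM]
    positivity
  by_contra hlt
  have hlt' : (3 * m + 1 : ℝ) ≤ 4 * k := by exact_mod_cast hk ▸ Nat.lt_of_not_le hlt
  obtain ⟨ε, hε⟩ : ∃ ε, ε = 1 / (2 * (M + 1)) := ⟨_, rfl⟩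
  have hε0 : 0 < ε := hε ▸ by positivity
  have hε1 : ε ≤ 1 := hε ▸ (div_le_one (by positivity)).2 (by linarith)
  have hεM : ε * (2 * (M + 1)) = 1 := hε ▸ div_mul_cancel₀ _ (by positivity)
  have hmain := hA (1 + ε) (by linarith) (by linarith) ρ him
  rw [← hk, hre, add_sub_cancel_left, add_assoc, ← hM, div_eq_mul_inv] at hmain
  have hmul := mul_le_mul_of_nonneg_left hmain hε0.le
  have he' : ε * ε⁻¹ = 1 := mul_inv_cancel₀ hε0.ne'
  nlinarith

theorem fMult_one_le (h : HasFunctionalEquation a m E lam mu Q omega)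
    (he : HasEulerProduct a) (hp : NonnegLam a) : fMult (xiF m E lam mu Q omega) 1 ≤ m := by
  obtain ⟨A, hA0, hA⟩ := exists_re_series_le h he hp
  obtain ⟨k, hk⟩ : ∃ k, k = fMult (xiF m E lam mu Q omega) 1 := ⟨_, rfl⟩
  obtain ⟨M, hM⟩ : ∃ M, M = A * Real.log 3 := ⟨_, rfl⟩
  have hM0 : 0 ≤ M := hM ▸ mul_nonneg hA0 (Real.log_nonneg (by norm_num))
  by_contra hlt
  have hlt' : (m + 1 : ℝ) ≤ k := by exact_mod_cast hk ▸ Nat.lt_of_not_le hlt
  obtain ⟨ε, hε⟩ : ∃ ε, ε = 1 / (2 * (M + 1)) := ⟨_, rfl⟩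
  have hε0 : 0 < ε := hε ▸ by positivity
  have hε1 : ε ≤ 1 := hε ▸ (div_le_one (by positivity)).2 (by linarith)
  have hεM : ε * (2 * (M + 1)) = 1 := hε ▸ div_mul_cancel₀ _ (by positivity)
  have hσ : (1 : ℝ) < 1 + ε := by linarith
  have hmain := hA (1 + ε) hσ (by linarith) 0 1
  have hn := re_zero_nonneg h he hp hσ
  have ht : reTerm (xiF m E lam mu Q omega) (pt (1 + ε) 0) 1 = k * ε⁻¹ := by
    have := reTerm_at (X := xiF m E lam mu Q omega) (1 + ε) 1
    simpa [hk, div_eq_mul_inv] using this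
  rw [re_pole_zero, abs_zero, zero_add, add_sub_cancel_left, ← hM, ht] at hmain
  have hmul := mul_le_mul_of_nonneg_left (hn.trans hmain) hε0.le
  have he' : ε * ε⁻¹ = 1 := mul_inv_cancel₀ hε0.ne'
  nlinarith

theorem four_order_le (h : HasFunctionalEquation a m E lam mu Q omega)
    (he : HasEulerProduct a) (hp : NonnegLam a) {t : ℝ} (ht : t ≠ 0) :
    4 * analyticOrderNatAt E (1 + t * I) ≤ 3 * m := by
  have h1 := four_fMult_le h he hp (ρ := 1 + t * I) (by simp) (by simpa using ht)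
  rwa [fMult, analyticOrderNatAt, FA.SelbergHadamard.order_xiF h (by simp),
    ← analyticOrderNatAt] at h1

theorem order_one_le (h : HasFunctionalEquation a m E lam mu Q omega)
    (he : HasEulerProduct a) (hp : NonnegLam a) : analyticOrderNatAt E 1 ≤ m := by
  have h1 := fMult_one_le h he hp
  rwa [fMult, analyticOrderNatAt, FA.SelbergHadamard.order_xiF h (by simp),
    ← analyticOrderNatAt] at h1

/-- **No zero on `re s = 1`.** -/
theorem ne_zero_line (h : HasFunctionalEquation a m E lam mu Q omega) (he : HasEulerProduct a)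
    (hp : NonnegLam a) (hm : m ≤ 1) (h1 : E 1 ≠ 0) {s : ℂ} (hs : s.re = 1) : E s ≠ 0 := fun e => by
  rcases eq_or_ne s.im 0 with hi | hi
  · exact h1 (by rwa [show s = 1 from Complex.ext (by simp [hs]) (by simp [hi])] at e)
  · have hk := four_order_le h he hp hi
    rw [show (1 : ℂ) + s.im * I = s from Complex.ext (by simp [hs]) (by simp)] at hk
    have := FA.SelbergOmega.order_pos h he e
    omega

/-- **The region, for the completed function.** -/
theorem exists_xiF_zeroFree (h : HasFunctionalEquation a m E lam mu Q omega)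
    (he : HasEulerProduct a) (hp : NonnegLam a) (hm : m ≤ 1) (h1 : E 1 ≠ 0) :
    ∃ c : ℝ, 0 < c ∧ c ≤ 1 ∧ ∀ ρ, xiF m E lam mu Q omega ρ = 0 →
      ρ.re ≤ 1 - c / Real.log (|ρ.im| + 3) := by
  obtain ⟨A, hA0, hA⟩ := exists_main_le h he hp
  have hd := isSelfDual_xiF h he
  obtain ⟨C, hC⟩ : ∃ C, C = 5 + A := ⟨_, rfl⟩
  have hC5 : 5 ≤ C := by linarith
  obtain ⟨Z, hZ⟩ : ∃ Z, Z = insert (1 : ℝ) ((FA.SelbergWeil.finite_near hd 0 1).toFinset.image
    fun z : ℂ => 1 - z.re) := ⟨_, rfl⟩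
  have hne : Z.Nonempty := hZ ▸ Finset.insert_nonempty _ _
  have hpos : 0 < Z.min' hne := by
    refine (Finset.lt_min'_iff _ _).2 fun y hy => ?_
    rw [hZ, Finset.mem_insert, Finset.mem_image] at hy
    rcases hy with rfl | ⟨z, hz, rfl⟩
    · exact one_pos
    · rw [Set.Finite.mem_toFinset] at hz
      linarith [(FA.SelbergHadamard.xiF_zero_open_strip h he (fun s => ne_zero_line h he hp hm h1)
        (hd.mult_ne_zero_iff.1 hz.1)).2.2]
  refine ⟨min (Z.min' hne) (1 / (14 * C)), lt_min hpos (by positivity),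
    (min_le_left _ _).trans (Finset.min'_le _ _ (hZ ▸ Finset.mem_insert_self _ _)), fun ρ hρ => ?_⟩
  obtain ⟨L, hL⟩ : ∃ L, L = Real.log (|ρ.im| + 3) := ⟨_, rfl⟩
  have hL1 : 1 ≤ L := hL ▸ one_le_log_add (abs_nonneg _)
  have hk := hd.mult_ne_zero_iff.2 hρ
  rw [← hL]
  rcases le_or_gt |ρ.im| 1 with hsmall | hlarge
  · have hmem : Z.min' hne ≤ 1 - ρ.re := Finset.min'_le _ _ (hZ ▸ Finset.mem_insert_of_mem
      (Finset.mem_image_of_mem _ ((Set.Finite.mem_toFinset _).2 ⟨hk, by simpa using hsmall⟩)))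
    have hdiv : min (Z.min' hne) (1 / (14 * C)) / L ≤ min (Z.min' hne) (1 / (14 * C)) :=
      div_le_self (lt_min hpos (by positivity)).le hL1
    linarith [min_le_left (Z.min' hne) (1 / (14 * C))]
  · obtain ⟨σ, hσ⟩ : ∃ σ, σ = 1 + 1 / (2 * C * L) := ⟨_, rfl⟩
    have hCL : 1 ≤ 2 * C * L := by nlinarith
    have hσ1 : 1 < σ := hσ ▸ lt_add_of_pos_right _ (by positivity)
    have hσ2 : σ ≤ 2 := by
      rw [hσ]
      linarith [(div_le_one (show (0 : ℝ) < 2 * C * L by positivity)).2 hCL]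
    have hi : ρ.im ≠ 0 := fun e => by norm_num [e] at hlarge
    have hmain := hA σ hσ1 hσ2 ρ hi
    have hb : 0 < σ - ρ.re := by linarith [(hd.zero_strip hρ).2]
    have hk1 : (1 : ℝ) ≤ fMult (xiF m E lam mu Q omega) ρ :=
      Nat.one_le_cast.2 (Nat.one_le_iff_ne_zero.2 hk)
    have hm' : (m : ℝ) ≤ 1 := by exact_mod_cast hm
    rw [← hL, show (σ - 1)⁻¹ = 2 * C * L by rw [hσ]; simp, ← mul_div_assoc,
      div_le_iff₀ hb] at hmain
    have hinv : |ρ.im|⁻¹ ≤ L := (inv_le_one_of_one_le₀ hlarge.le).trans hL1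
    have hbd : 3 * m * (2 * C * L) + 5 * m * |ρ.im|⁻¹ + A * L ≤ 7 * C * L := by
      have hm0 : (0 : ℝ) ≤ m := Nat.cast_nonneg m
      have hL0 : 0 ≤ L := by linarith
      have hi0 : 0 ≤ |ρ.im|⁻¹ := by positivity
      nlinarith [mul_le_mul_of_nonneg_right hm' (show 0 ≤ 3 * (2 * C * L) + 5 * |ρ.im|⁻¹ by
        positivity)]
    have h7 := mul_le_mul_of_nonneg_right hbd hb.le
    have h8 : 1 / (14 * C * L) ≤ 1 - ρ.re := by
      rw [hσ] at h7 hmain
      have e : 7 * C * L * (1 / (2 * C * L)) = 7 / 2 := by field_simp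
      rw [div_le_iff₀ (by positivity)]
      nlinarith
    have h9 : min (Z.min' hne) (1 / (14 * C)) / L ≤ 1 / (14 * C * L) := by
      rw [← div_div 1 (14 * C) L]
      exact div_le_div_of_nonneg_right (min_le_right _ _) (by linarith)
    linarith

/-- **The region for `E`.** -/
theorem exists_zeroFree (h : HasFunctionalEquation a m E lam mu Q omega)
    (he : HasEulerProduct a) (hp : NonnegLam a) (hm : m ≤ 1) (h1 : E 1 ≠ 0) :
    ∃ c : ℝ, 0 < c ∧ ∀ ρ, E ρ = 0 → ρ.re ≤ 1 - c / Real.log (|ρ.im| + 3) := by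
  obtain ⟨c, hc, hc1, hz⟩ := exists_xiF_zeroFree h he hp hm h1
  refine ⟨c, hc, fun ρ hρ => ?_⟩
  rcases le_or_gt ρ.re 0 with h0 | h0
  · linarith [(div_le_one (zero_lt_one.trans_le (one_le_log_add (abs_nonneg ρ.im)))).2
      (hc1.trans (one_le_log_add (abs_nonneg ρ.im)))]
  · exact hz ρ ((FA.SelbergHadamard.xiF_eq_zero_iff h h0).2 hρ)

end FA.SelbergDLVP

end
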