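import Fermat.Agent.SelbergLandau.Lines
import Fermat.Agent.SelbergOmega.Landau

/-!
# The series of a nonnegative `Λ_F` converges for `re s > 1`

`-L'/L` continues `∑ Λ_F n n ^ (-s)` to every real point beyond `1`, so by Landau's theorem the
series converges there; then `3 + 4 cos θ + cos 2θ ≥ 0` applies term by term.
-/

set_option autoImplicit false

noncomputable section

open Complex MeasureTheory ProbabilityTheory Filter Topology Set
open scoped ENNReal
open FA.DegreeGap (HasFunctionalEquation pt)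
open FA.SelbergClass (HasEulerProduct)
open FA.SelbergLandau (lamF lamF_mul GoodRight exists_lSeries_lamF)

namespace FA.SelbergDLVP

variable {a : ℕ → ℂ} {m : ℕ} {E : ℂ → ℂ} {r : ℕ} {lam : Fin r → ℝ} {mu : Fin r → ℂ} {Q : ℝ}
  {omega : ℂ}

/-- `Λ_F n` is a nonnegative real number for every `n`. -/
def NonnegLam (a : ℕ → ℂ) : Prop := ∀ n, (lamF a n).im = 0 ∧ 0 ≤ (lamF a n).re

/-- `re Λ_F n`. -/
def lamRe (a : ℕ → ℂ) (n : ℕ) : ℝ := (lamF a n).re

theorem lamRe_zero (a : ℕ → ℂ) : lamRe a 0 = 0 := by simp [lamRe]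

theorem NonnegLam.nonneg (hp : NonnegLam a) (n : ℕ) : 0 ≤ lamRe a n := (hp n).2

theorem NonnegLam.eq_ofReal (hp : NonnegLam a) (n : ℕ) : lamF a n = (lamRe a n : ℂ) :=
  Complex.ext rfl (by simp [(hp n).1])

theorem re_eq_zero_iff (hp : NonnegLam a) (n : ℕ) : lamRe a n = 0 ↔ lamF a n = 0 :=
  ⟨fun e => by rw [hp.eq_ofReal, e, ofReal_zero], fun e => by simp [lamRe, e]⟩

/-- The measure with mass `Λ_F n` at `n`. -/
def lamMeasure (a : ℕ → ℂ) : Measure ℕ :=
  Measure.count.withDensity fun n => ENNReal.ofReal (lamRe a n)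

theorem norm_term_real (hp : NonnegLam a) (σ : ℝ) (n : ℕ) :
    ‖LSeries.term (lamF a) (σ : ℂ) n‖ = lamRe a n * Real.exp (-σ * Real.log n) := by
  rcases eq_or_ne n 0 with rfl | hn
  · simp [lamRe_zero]
  · have hn' : (0 : ℝ) < n := by exact_mod_cast Nat.pos_of_ne_zero hn
    rw [LSeries.norm_term_eq, if_neg hn, hp.eq_ofReal, Complex.norm_real,
      Real.norm_of_nonneg (hp.nonneg n), ofReal_re, neg_mul, Real.exp_neg,
      ← div_eq_mul_inv, mul_comm σ, ← Real.rpow_def_of_pos hn']

theorem mem_integrableExpSet_iff (hp : NonnegLam a) (t : ℝ) :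
    t ∈ integrableExpSet (fun n : ℕ => Real.log n) (lamMeasure a) ↔
      LSeriesSummable (lamF a) ((-t : ℝ) : ℂ) := by
  show Integrable _ _ ↔ _
  rw [lamMeasure, integrable_withDensity_iff_integrable_smul' (measurable_of_countable _)
    (Eventually.of_forall fun _ => ENNReal.ofReal_lt_top), integrable_count_iff, LSeriesSummable,
    ← summable_norm_iff (f := LSeries.term (lamF a) ((-t : ℝ) : ℂ))]
  refine summable_congr fun n => ?_
  rw [norm_term_real hp, neg_neg, ENNReal.toReal_ofReal (hp.nonneg n), smul_eq_mul, norm_mul,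
    Real.norm_of_nonneg (hp.nonneg n), Real.norm_of_nonneg (Real.exp_pos _).le]

theorem complexMGF_lamMeasure (hp : NonnegLam a) {t : ℝ}
    (ht : t ∈ integrableExpSet (fun n : ℕ => Real.log n) (lamMeasure a)) :
    complexMGF (fun n : ℕ => Real.log n) (lamMeasure a) t = LSeries (lamF a) (-(t : ℂ)) := by
  have hsum := (mem_integrableExpSet_iff hp t).1 ht
  have hterm : ∀ n : ℕ, LSeries.term (lamF a) (-(t : ℂ)) n =
      (lamRe a n : ℂ) * cexp ((t : ℂ) * (Real.log n : ℝ)) := fun n => by
    rcases eq_or_ne n 0 with rfl | hn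
    · simp [lamRe_zero]
    rw [LSeries.term_of_ne_zero hn, hp.eq_ofReal, cpow_neg, div_inv_eq_mul,
      cpow_def_of_ne_zero (Nat.cast_ne_zero.2 hn), ← natCast_log, mul_comm (t : ℂ)]
  rw [complexMGF, lamMeasure, integral_withDensity_eq_integral_toReal_smul
    (measurable_of_countable _) (Eventually.of_forall fun _ => ENNReal.ofReal_lt_top)]
  have e : (fun n : ℕ => (ENNReal.ofReal (lamRe a n)).toReal •
      cexp ((t : ℂ) * (Real.log n : ℝ))) = LSeries.term (lamF a) (-(t : ℂ)) := funext fun n => by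
    rw [hterm, ENNReal.toReal_ofReal (hp.nonneg n), Complex.real_smul]
  rw [e, integral_countable (integrable_count_iff.2 (by push_cast at hsum; exact hsum.norm)),
    LSeries]
  simp

theorem differentiableOn_lSeries (h : HasFunctionalEquation a m E lam mu Q omega) :
    DifferentiableOn ℂ (LSeries a) {s : ℂ | 1 < s.re} := fun _ hs =>
  (FA.SelbergZeroCount.differentiableAt_lSeries h hs).differentiableWithinAt

/-- **Landau: the series converges for `σ > 1`.** -/
theorem summable_real (h : HasFunctionalEquation a m E lam mu Q omega) (he : HasEulerProduct a)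
    (hp : NonnegLam a) {σ : ℝ} (hσ : 1 < σ) : LSeriesSummable (lamF a) (σ : ℂ) := by
  obtain ⟨σ₀, hσ₀, hfar⟩ := exists_lSeries_lamF h he
  have hU : IsOpen {s : ℂ | 1 < s.re} := isOpen_lt continuous_const continuous_re
  have hint : ∀ t < -σ₀, t ∈ integrableExpSet (fun n : ℕ => Real.log n) (lamMeasure a) :=
    fun t ht => (mem_integrableExpSet_iff hp t).2 (hfar _ (by simp; linarith)).1
  have hmain := FA.SelbergOmega.landau_integrable (μ := lamMeasure a)
    (X := fun n : ℕ => Real.log n) (measurable_of_countable _)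
    (Eventually.of_forall fun n => Real.log_natCast_nonneg n)
    (F := fun z => -(deriv (LSeries a) (-z) / LSeries a (-z))) (a := -σ₀) (b := -1) hint
    (fun t ht => ?_) (fun t ht => ?_) (-σ) (by linarith)
  · have h2 := (mem_integrableExpSet_iff hp (-σ)).1 hmain
    rwa [neg_neg] at h2
  · have hre : 1 < (-(t : ℂ)).re := by simp; linarith
    have hA := (differentiableOn_lSeries h).analyticAt (hU.mem_nhds hre)
    have hn : AnalyticAt ℂ (fun z : ℂ => -z) t := analyticAt_id.neg
    exact (((hA.deriv).comp hn).div (hA.comp hn)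
      (FA.SelbergZeroCount.lSeries_ne_zero he hre (h.summable _ hre))).neg
  · rw [complexMGF_lamMeasure hp (hint t ht),
      (hfar (-(t : ℂ)) (by simp; linarith)).2.2, neg_neg]

theorem summable_lamF (h : HasFunctionalEquation a m E lam mu Q omega) (he : HasEulerProduct a)
    (hp : NonnegLam a) {s : ℂ} (hs : 1 < s.re) : LSeriesSummable (lamF a) s :=
  (summable_real h he hp hs).of_re_le_re (by simp)

/-- **`-L'/L = ∑ Λ_F n n ^ (-s)` for `re s > 1`.** -/
theorem logDeriv_eq (h : HasFunctionalEquation a m E lam mu Q omega) (he : HasEulerProduct a)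
    (hp : NonnegLam a) {s : ℂ} (hs : 1 < s.re) :
    deriv (LSeries a) s / LSeries a s = -LSeries (lamF a) s := by
  have hab : LSeries.abscissaOfAbsConv a < s.re :=
    (LSeries.abscissaOfAbsConv_le_of_forall_lt_LSeriesSummable (x := 1)
      fun y hy => h.summable y (by simpa using hy)).trans_lt
        (EReal.coe_lt_coe_iff.2 hs)
  have hA : LSeriesSummable (toArithmeticFunction a) s :=
    (LSeriesSummable_congr s fun {n} hn => FA.SelbergClass.coe_toArithmeticFunction hn).2
      (h.summable s hs)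
  have e := ArithmeticFunction.LSeries_mul' (summable_lamF h he hp hs) hA
  rw [lamF_mul he.map_one,
    LSeries_congr (fun {n} hn => FA.SelbergClass.coe_toArithmeticFunction hn) s,
    LSeries_congr (fun {n} hn => FA.SelbergClass.coe_toArithmeticFunction hn) s] at e
  rw [LSeries_deriv hab, e, neg_div,
    mul_div_cancel_right₀ _ (FA.SelbergZeroCount.lSeries_ne_zero he hs (h.summable s hs))]

theorem goodRight (h : HasFunctionalEquation a m E lam mu Q omega) (he : HasEulerProduct a)
    (hp : NonnegLam a) {β : ℝ} (hβ : 1 < β) : GoodRight a β :=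
  ⟨hβ, fun v => by
    have hs : 1 < (pt β v).re := by rwa [FA.DegreeGap.pt_re]
    exact ⟨summable_lamF h he hp hs, FA.SelbergZeroCount.lSeries_ne_zero he hs (h.summable _ hs),
      logDeriv_eq h he hp hs⟩⟩

/-- The real part, term by term. -/
theorem hasSum_re (h : HasFunctionalEquation a m E lam mu Q omega) (he : HasEulerProduct a)
    (hp : NonnegLam a) {σ : ℝ} (hσ : 1 < σ) (t : ℝ) :
    HasSum (fun n : ℕ => lamRe a n * Real.exp (-σ * Real.log n) * Real.cos (t * Real.log n))
      (LSeries (lamF a) (pt σ t)).re := by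
  have hs : 1 < (pt σ t).re := by rwa [FA.DegreeGap.pt_re]
  refine (Complex.hasSum_re (summable_lamF h he hp hs).hasSum).congr_fun fun n => ?_
  rcases eq_or_ne n 0 with rfl | hn
  · simp [lamRe_zero]
  rw [LSeries.term_of_ne_zero hn, div_eq_mul_inv, ← cpow_neg,
    cpow_def_of_ne_zero (Nat.cast_ne_zero.2 hn), ← natCast_log, hp.eq_ofReal, re_ofReal_mul,
    Complex.exp_re, mul_assoc]
  congr 1
  rw [re_ofReal_mul, im_ofReal_mul, neg_re, neg_im, FA.DegreeGap.pt_re,
    show (pt σ t).im = t by simp [pt]]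
  simp only [neg_mul, Real.cos_neg, mul_comm (Real.log n)]

/-- **`3 + 4 cos + cos 2 ≥ 0`.** -/
theorem three_four_one (h : HasFunctionalEquation a m E lam mu Q omega) (he : HasEulerProduct a)
    (hp : NonnegLam a) {σ : ℝ} (hσ : 1 < σ) (t : ℝ) :
    0 ≤ 3 * (LSeries (lamF a) (pt σ 0)).re + 4 * (LSeries (lamF a) (pt σ t)).re +
      (LSeries (lamF a) (pt σ (2 * t))).re := by
  refine hasSum_le (fun n => ?_) hasSum_zero ((((hasSum_re h he hp hσ 0).mul_left 3).add
    ((hasSum_re h he hp hσ t).mul_left 4)).add (hasSum_re h he hp hσ (2 * t)))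
  simp only [zero_mul, Real.cos_zero, mul_assoc 2 t, Real.cos_two_mul]
  calc (0 : ℝ) ≤ lamRe a n * Real.exp (-σ * Real.log n) *
        (2 * (Real.cos (t * Real.log n) + 1) ^ 2) :=
        mul_nonneg (mul_nonneg (hp.nonneg n) (Real.exp_pos _).le) (by positivity)
    _ = _ := by ring

theorem re_zero_nonneg (h : HasFunctionalEquation a m E lam mu Q omega) (he : HasEulerProduct a)
    (hp : NonnegLam a) {σ : ℝ} (hσ : 1 < σ) : 0 ≤ (LSeries (lamF a) (pt σ 0)).re :=
  hasSum_le (fun n => by
    simp only [zero_mul, Real.cos_zero, mul_one]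
    exact mul_nonneg (hp.nonneg n) (Real.exp_pos _).le) hasSum_zero (hasSum_re h he hp hσ 0)

end FA.SelbergDLVP

end
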