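import Fermat.Agent.SelbergDLVP.Cutoff
import Fermat.Agent.SelbergDLVP.Region

/-!
# The explicit formula at a cut-off, uniformly

Every zero contributes `O (x exp (-√(2 c log x)))` times `(1 + |γ|) ^ (-3/2)`.
-/

set_option autoImplicit false

noncomputable section

open Complex MeasureTheory Filter Topology Set
open scoped Real ComplexConjugate
open FA.WeilExplicit (IsTest testTransform)
open FA.DedekindHadamard (fMult)
open FA.DegreeGap (HasFunctionalEquation)
open FA.SelbergClass (HasEulerProduct)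
open FA.SelbergHadamard (xiF isSelfDual_xiF one_le_log_add)
open FA.SelbergLandau (lamF)
open FA.SelbergWeil (archWeightF halfKernel)

namespace FA.SelbergDLVP

variable {a : ℕ → ℂ} {m : ℕ} {E : ℂ → ℂ} {r : ℕ} {lam : Fin r → ℝ} {mu : Fin r → ℂ} {Q : ℝ}
  {omega : ℂ} {p q δ L c : ℝ}

/-- `∑ Λ_F n band (log n - L)`. -/
def bandSum (a : ℕ → ℂ) (p q δ L : ℝ) : ℝ := ∑' n : ℕ, lamRe a n * band p q δ (Real.log n - L)

/-- The test function of a cut-off at `exp L`. -/
def bandTest (p q δ L u : ℝ) : ℂ := cexp ((u : ℂ) / 2) * bandC p q δ (u - L)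

theorem isTest_bandTest (hδ : 0 < δ) (hpq : p + δ ≤ q) (L : ℝ) :
    IsTest (bandTest p q δ L) :=
  ⟨((Complex.ofRealCLM.contDiff.div_const 2).cexp).mul
      (contDiff_bandC.comp (contDiff_id.sub contDiff_const)),
    HasCompactSupport.intro (isCompact_Icc (a := L + p) (b := L + q)) fun u hu => by
      rw [mem_Icc, not_and_or, not_le, not_le] at hu
      rw [bandTest, bandC, band_eq_zero hδ hpq
        (hu.imp (fun h => by linarith) (fun h => by linarith)), ofReal_zero, mul_zero]⟩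

theorem testTransform_bandTest (L : ℝ) (s : ℂ) :
    testTransform (bandTest p q δ L) s = cexp (s * (L : ℂ)) * bandMellin p q δ s := by
  rw [testTransform, bandMellin, ← integral_const_mul,
    ← integral_add_right_eq_self
      (fun u : ℝ => bandTest p q δ L u * cexp ((s - 1 / 2) * (u : ℂ))) L]
  refine integral_congr_ae (Eventually.of_forall fun u => ?_)
  simp only [bandTest, add_sub_cancel_right]
  rw [mul_right_comm, ← Complex.exp_add, mul_left_comm (cexp (s * (L : ℂ))), ← Complex.exp_add,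
    mul_comm]
  congr 2
  push_cast
  ring

theorem lineBound_two (h : HasFunctionalEquation a m E lam mu Q omega) (he : HasEulerProduct a)
    (hp : NonnegLam a) : ∃ A, FA.SelbergWeil.LineBound (xiF m E lam mu Q omega) 2 A :=
  FA.SelbergWeil.lineBound_xiF h (goodRight h he hp (by norm_num)) le_rfl

theorem two_sqrt_le {x y : ℝ} (hx : 0 ≤ x) (hy : 0 ≤ y) : √(4 * (x * y)) ≤ x + y :=
  (Real.sqrt_le_iff).2 ⟨by positivity, by nlinarith [sq_nonneg (x - y)]⟩

theorem exp_half_le (hc0 : 0 ≤ c) (hc1 : c ≤ 1) (hL : 0 ≤ L) :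
    Real.exp (L / 2) ≤ Real.exp 1 * (Real.exp L * Real.exp (-√(2 * c * L))) := by
  rw [← Real.exp_add, ← Real.exp_add]
  refine Real.exp_le_exp.2 ?_
  have h1 := two_sqrt_le hc0 (show 0 ≤ L / 2 by linarith)
  rw [show 4 * (c * (L / 2)) = 2 * c * L by ring] at h1
  linarith

/-- `x ^ β (1 + |γ|) ^ (-2) ≪ x exp (-√(2 c log x)) (1 + |γ|) ^ (-3/2)`. -/
theorem zero_weight_le (hc0 : 0 ≤ c) (hL : 0 ≤ L) {β g : ℝ} (hg : 0 ≤ g)
    (hβ : β ≤ 1 - c / Real.log (g + 3)) :
    Real.exp (β * L) / (1 + g) ^ 2 ≤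
      2 * (Real.exp L * Real.exp (-√(2 * c * L))) * (1 + g) ^ (-(3 / 2 : ℝ)) := by
  obtain ⟨l, hl⟩ : ∃ l, l = Real.log (g + 3) := ⟨_, rfl⟩
  have hl1 : 1 ≤ l := hl ▸ one_le_log_add hg
  have hl0 : 0 < l := by linarith
  rw [← hl] at hβ
  have h1 : β * L ≤ L + -√(2 * c * L) + l / 2 := by
    have h2 := two_sqrt_le (show 0 ≤ c * L / l by positivity) (show 0 ≤ l / 2 by linarith)
    rw [show 4 * (c * L / l * (l / 2)) = 2 * c * L by field_simp; ring] at h2
    have h3 := mul_le_mul_of_nonneg_right hβ hL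
    rw [sub_mul, one_mul, div_mul_eq_mul_div] at h3
    linarith
  have h4 : Real.exp (l / 2) ≤ 2 * √(1 + g) := by
    rw [Real.exp_half, hl, Real.exp_log (by linarith)]
    exact (Real.sqrt_le_iff).2 ⟨by positivity,
      by rw [mul_pow, Real.sq_sqrt (by linarith)]; linarith⟩
  have e : (1 + g) ^ (-(3 / 2 : ℝ)) = √(1 + g) / (1 + g) ^ 2 := by
    rw [show -(3 / 2 : ℝ) = 1 / 2 - (2 : ℕ) by norm_num, Real.rpow_sub_natCast (by positivity),
      Real.sqrt_eq_rpow]
  rw [e, ← mul_div_assoc]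
  refine div_le_div_of_nonneg_right ?_ (by positivity)
  refine (Real.exp_le_exp.2 h1).trans ?_
  rw [Real.exp_add, Real.exp_add]
  refine (mul_le_mul_of_nonneg_left h4 (by positivity)).trans (le_of_eq ?_)
  ring

theorem summable_bandSum (hδ : 0 < δ) (hpq : p + δ ≤ q) (hq : q ≤ 1) (L : ℝ) :
    Summable fun n : ℕ => lamRe a n * band p q δ (Real.log n - L) := by
  refine summable_of_ne_finset_zero (s := Finset.range (⌈Real.exp (L + 1)⌉₊ + 1)) fun n hn => ?_
  rw [Finset.mem_range, not_lt] at hn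
  have h2 : Real.exp (L + 1) < n := lt_of_le_of_lt (Nat.le_ceil _) (by exact_mod_cast hn)
  have h3 : L + 1 < Real.log n := by
    rw [← Real.log_exp (L + 1)]
    exact Real.log_lt_log (Real.exp_pos _) h2
  rw [band_eq_zero hδ hpq (Or.inr (by linarith)), mul_zero]

theorem weilSide_bandTest (hp : NonnegLam a) (hδ : 0 < δ) (hpq : p + δ ≤ q)
    (hpL : -p ≤ L) :
    ∑' n : ℕ, (lamF a n * bandTest p q δ L (Real.log n) +
      conj (lamF a n) * bandTest p q δ L (-Real.log n)) / (√n : ℂ) =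
      (bandSum a p q δ L : ℂ) := by
  rw [bandSum, Complex.ofReal_tsum]
  refine tsum_congr fun n => ?_
  rcases eq_or_ne n 0 with rfl | hn
  · simp [lamRe_zero]
  have hn0 : (0 : ℝ) < n := by exact_mod_cast Nat.pos_of_ne_zero hn
  have hs : cexp (((Real.log n : ℝ) : ℂ) / 2) = (√n : ℂ) := by
    rw [Real.sqrt_eq_rpow, Real.rpow_def_of_pos hn0, ofReal_exp]
    push_cast
    ring_nf
  have hneg : bandC p q δ (-Real.log n - L) = 0 := by
    rw [bandC, band_eq_zero hδ hpq (Or.inl (by linarith [Real.log_natCast_nonneg n])), ofReal_zero]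
  rw [bandTest, bandTest, hneg, mul_zero, mul_zero, add_zero, hs, bandC, hp.eq_ofReal]
  have hne : (√n : ℂ) ≠ 0 := ofReal_ne_zero.2 (Real.sqrt_pos.2 hn0).ne'
  field_simp
  push_cast
  ring

/-- **Smoothed prime number theorem, uniform in the cut-off.** -/
theorem exists_bandSum_close (h : HasFunctionalEquation a m E lam mu Q omega)
    (he : HasEulerProduct a) (hp : NonnegLam a) (hc : 0 < c) (hc1 : c ≤ 1)
    (hz : ∀ ρ, xiF m E lam mu Q omega ρ = 0 → ρ.re ≤ 1 - c / Real.log (|ρ.im| + 3)) :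
    ∃ C : ℝ, 0 ≤ C ∧ ∀ p q δ : ℝ, 0 < δ → δ ≤ 1 → -1 ≤ p → p + 2 * δ ≤ q → q ≤ 1 →
      ∀ L : ℝ, 1 ≤ L → ‖(bandSum a p q δ L : ℂ) -
          (m : ℂ) * (Real.exp L : ℂ) * bandMellin p q δ 1‖ ≤
        C / δ ^ 2 * (Real.exp L * Real.exp (-√(2 * c * L))) := by
  obtain ⟨K, hK, hKb⟩ := exists_bandMellin_le
  obtain ⟨A, hA⟩ := lineBound_two h he hp
  have hd := isSelfDual_xiF h he
  have hW := FA.SelbergWeil.summable_weight32 hd hA
  obtain ⟨W, hWd⟩ : ∃ W, W = ∑' ρ : ℂ, (fMult (xiF m E lam mu Q omega) ρ : ℝ) *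
      (1 + |ρ.im|) ^ (-(3 / 2 : ℝ)) := ⟨_, rfl⟩
  obtain ⟨A', hA'⟩ :=
    FA.SelbergWeil.exists_halfKernel_le (m := m) (Q := Q) h.lam_pos h.mu_re
  have hA'0 : 0 ≤ A' := by
    have := (norm_nonneg _).trans (hA' 0)
    simpa using this
  obtain ⟨J, hJ⟩ : ∃ J, J = ∫ t : ℝ, (1 + |t|) ^ (-(7 / 4 : ℝ)) := ⟨_, rfl⟩
  have hJ0 : 0 ≤ J := hJ ▸ integral_nonneg fun t => Real.rpow_nonneg (by positivity) _
  refine ⟨K * (2 * W + Real.exp 1 * (m + 2 * A' * J / (2 * π))), ?_,
    fun p q δ hδ hδ1 hp1 hpq hq L hL => ?_⟩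
  · have : 0 ≤ W := hWd ▸ tsum_nonneg fun ρ => by positivity
    positivity
  obtain ⟨N, hN⟩ : ∃ N, N = K / δ ^ 2 := ⟨_, rfl⟩
  have hN0 : 0 ≤ N := hN ▸ div_nonneg hK (sq_nonneg δ)
  obtain ⟨U, hU⟩ : ∃ U, U = Real.exp L * Real.exp (-√(2 * c * L)) := ⟨_, rfl⟩
  have hU0 : 0 ≤ U := hU ▸ by positivity
  have hhalf : Real.exp (L / 2) ≤ Real.exp 1 * U := hU ▸ exp_half_le hc.le hc1 (by linarith)
  have hb : ∀ s : ℂ, 0 ≤ s.re → s.re ≤ 1 → ‖bandMellin p q δ s‖ ≤ N / (1 + |s.im|) ^ 2 :=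
    fun s h0 h1 => hN ▸ hKb p q δ hδ hδ1 hp1 hpq hq s h0 h1
  have hsum := FA.SelbergWeil.hasSum_weil h he
    (isTest_bandTest (p := p) (q := q) hδ (by linarith) L)
  simp only [testTransform_bandTest] at hsum
  rw [FA.SelbergWeil.weilSide, weilSide_bandTest hp hδ (by linarith) (by linarith)] at hsum
  simp only [testTransform_bandTest, zero_mul, one_mul, Complex.exp_zero] at hsum
  rw [← Complex.ofReal_exp] at hsum
  have hzero : ‖∑' ρ : ℂ, (fMult (xiF m E lam mu Q omega) ρ : ℂ) *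
      (cexp (ρ * (L : ℂ)) * bandMellin p q δ ρ)‖ ≤ N * (2 * U) * W := by
    rw [hWd]
    refine tsum_of_norm_bounded (hW.hasSum.mul_left _) fun ρ => ?_
    by_cases hm : fMult (xiF m E lam mu Q omega) ρ = 0
    · simp [hm]
    have hρ := hd.mult_ne_zero_iff.1 hm
    obtain ⟨h0, h1⟩ := hd.zero_strip hρ
    rw [norm_mul, norm_mul, Complex.norm_natCast, Complex.norm_exp,
      mul_left_comm _ (fMult (xiF m E lam mu Q omega) ρ : ℝ)]
    refine mul_le_mul_of_nonneg_left ?_ (Nat.cast_nonneg _)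
    refine (mul_le_mul_of_nonneg_left (hb ρ h0 h1) (Real.exp_pos _).le).trans ?_
    simp only [mul_re, ofReal_re, ofReal_im, mul_zero, sub_zero]
    rw [mul_div_assoc', mul_comm (Real.exp _), mul_div_assoc, mul_assoc N, hU]
    exact mul_le_mul_of_nonneg_left
      (zero_weight_le hc.le (by linarith) (abs_nonneg _) (hz ρ hρ)) hN0
  have harch : ‖(∫ t : ℝ, cexp ((((1 / 2 : ℝ) : ℂ) + t * I) * (L : ℂ)) *
      bandMellin p q δ (((1 / 2 : ℝ) : ℂ) + t * I) * (archWeightF lam mu Q t : ℂ)) / (2 * π)‖ ≤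
      N * (Real.exp 1 * U) * (2 * A' * J / (2 * π)) := by
    rw [norm_div, norm_mul, Complex.norm_ofNat, Complex.norm_real,
      Real.norm_of_nonneg Real.pi_pos.le, mul_div_assoc']
    refine div_le_div_of_nonneg_right ?_ (by positivity)
    rw [hJ, ← mul_assoc, ← integral_const_mul]
    refine norm_integral_le_of_norm_le
      ((FA.SelbergWeil.integrable_rpow_weight (by norm_num)).const_mul _)
      (Eventually.of_forall fun t => ?_)
    have hw : ‖(archWeightF lam mu Q t : ℂ)‖ ≤ 2 * A' * (1 + |t|) ^ (1 / 4 : ℝ) := by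
      rw [← FA.SelbergWeil.halfKernel_add_conj (m := m) h.Q_pos]
      refine (norm_add_le _ _).trans ?_
      rw [Complex.norm_conj]
      have hk := hA' t
      rw [halfKernel] at hk
      linarith
    have ht := hb (((1 / 2 : ℝ) : ℂ) + t * I) (by simp) (by simp; norm_num)
    rw [show (((1 / 2 : ℝ) : ℂ) + t * I).im = t by simp] at ht
    rw [norm_mul, norm_mul, Complex.norm_exp,
      show ((((1 / 2 : ℝ) : ℂ) + t * I) * (L : ℂ)).re = L / 2 by simp; ring]
    refine (mul_le_mul (mul_le_mul hhalf ht (norm_nonneg _) (by positivity)) hw (norm_nonneg _)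
      (by positivity)).trans (le_of_eq ?_)
    rw [show -(7 / 4 : ℝ) = 1 / 4 - (2 : ℕ) by norm_num, Real.rpow_sub_natCast (by positivity)]
    ring
  have h0 : ‖bandMellin p q δ 0‖ * m ≤ N * (Real.exp 1 * U) * m := by
    refine mul_le_mul_of_nonneg_right ((hb 0 (by simp) (by simp)).trans ?_) (Nat.cast_nonneg m)
    simp only [zero_im, abs_zero, add_zero, one_pow, div_one]
    exact le_mul_of_one_le_right hN0 ((Real.one_le_exp (by linarith)).trans hhalf)
  rw [← hU]
  rw [hsum.tsum_eq] at hzero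
  generalize hI : (∫ t : ℝ, cexp ((((1 / 2 : ℝ) : ℂ) + t * I) * (L : ℂ)) *
    bandMellin p q δ (((1 / 2 : ℝ) : ℂ) + t * I) * (archWeightF lam mu Q t : ℂ)) / (2 * π) = I'
    at hzero harch
  calc ‖(bandSum a p q δ L : ℂ) - (m : ℂ) * (Real.exp L : ℂ) * bandMellin p q δ 1‖
      = ‖((m : ℂ) * bandMellin p q δ 0 + I') - ((m : ℂ) * (bandMellin p q δ 0 +
          (Real.exp L : ℂ) * bandMellin p q δ 1) - (bandSum a p q δ L : ℂ) + I')‖ := by
        congr 1
        ring
    _ ≤ N * (Real.exp 1 * U) * m + N * (Real.exp 1 * U) * (2 * A' * J / (2 * π)) +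
        N * (2 * U) * W := by
        refine (norm_sub_le _ _).trans (add_le_add ((norm_add_le _ _).trans
          (add_le_add ?_ harch)) hzero)
        rw [norm_mul, Complex.norm_natCast, mul_comm]
        exact h0
    _ = _ := by
        rw [hN]
        ring

end FA.SelbergDLVP

end
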